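/-
S33 (helper5), reduction (R): **ordinarity from an identity on inertia**.

`ρ : G_ℚ → GL₂(A)`, `A` a Noetherian local ring.  If for a place `P` over `p` there is `σ₀ ∈ I_P` with
`det ρ(σ₀) - 1` a unit, and `(ρ(τ) - det ρ(τ)) (ρ(σ) - 1) = 0` for all `σ, τ ∈ I_P`, then
`L := range (ρ(σ₀) - 1) = ker (ρ(σ₀) - det ρ(σ₀))` is a direct summand of rank one, stable under the
decomposition group (`I_P ◁ D_P`), and `(ρ(σ) - 1) V ⊆ L` for `σ ∈ I_P`: `ρ.IsOrdinaryAt p`.

* `s33_idem`, `s33_basis_of_idem`, `s33_line` : the linear algebra;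
* `s33_conj_mem` : inertia is normalised by the decomposition group;
* `s33_isOrdinaryAt_of_identity` : the criterion.
-/
import Mathlib
import Fermat.Prelude.Def_GaloisRep_LocalConditions

set_option autoImplicit false
set_option linter.unusedSectionVars false
set_option linter.unusedVariables false
set_option linter.style.haveILetI false

namespace Fermat.Agent.S33L

local notation "Qb" => AlgebraicClosure ℚ
local notation "GQ" => (AlgebraicClosure ℚ ≃ₐ[ℚ] AlgebraicClosure ℚ)

section Algebra

variable {T V : Type} [CommRing T] [IsLocalRing T] [IsNoetherianRing T] [AddCommGroup V]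
  [Module T V] [Module.Free T V] [Module.Finite T V]

/-- the quadratic relation makes `u • (f - 1)` idempotent -/
theorem s33_idem (f : Module.End T V) (d u : T) (hu : u * (d - 1) = 1)
    (hq : (f - d • (1 : Module.End T V)) * (f - 1) = 0) :
    IsIdempotentElem (u • (f - 1)) := by
  have hcomm : (f - 1) * (f - d • (1 : Module.End T V)) = 0 := by
    have h1 : (f - 1) * (f - d • (1 : Module.End T V)) =
        (f - d • (1 : Module.End T V)) * (f - 1) := by
      simp only [sub_mul, mul_sub, mul_one, one_mul, smul_mul_assoc, mul_smul_comm, smul_sub]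
      abel
    rw [h1, hq]
  have h2 : (f - 1) * (f - 1) = (d - 1) • (f - 1) := by
    have h3 : (f - 1 : Module.End T V) = (f - d • (1 : Module.End T V)) + (d - 1) • 1 := by
      rw [sub_smul, one_smul]
      abel
    calc (f - 1) * (f - 1) = (f - 1) * ((f - d • (1 : Module.End T V)) + (d - 1) • 1) := by
          rw [← h3]
      _ = (d - 1) • (f - 1) := by
          rw [mul_add, hcomm, zero_add, mul_smul_comm, mul_one]
  show u • (f - 1) * u • (f - 1) = u • (f - 1)
  rw [smul_mul_smul_comm, h2, smul_smul, mul_assoc, hu, mul_one]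

/-- a non-trivial idempotent of a free module of rank two over a local ring has a range spanned by
the first vector of a basis -/
theorem s33_basis_of_idem (h2 : Module.finrank T V = 2) (e : Module.End T V)
    (he : IsIdempotentElem e) (h0 : e ≠ 0) (h1 : e ≠ 1) :
    ∃ b : Module.Basis (Fin 2) T V, LinearMap.range e = Submodule.span T {b 0} := by
  classical
  have hproj : LinearMap.IsProj (LinearMap.range e) e := LinearMap.IsIdempotentElem.isProj_range e he
  have hc : IsCompl (LinearMap.range e) (LinearMap.ker e) := hproj.isCompl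
  set L := LinearMap.range e with hL
  set L' := LinearMap.ker e with hL'
  -- projectivity
  haveI : Module.Projective T ↥L := by
    refine Module.Projective.of_split L.subtype (e.codRestrict L (fun x => LinearMap.mem_range_self e x)) ?_
    ext ⟨x, hx⟩
    show e x = x
    exact hproj.map_id x hx
  haveI : Module.Projective T ↥L' := by
    refine Module.Projective.of_split L'.subtype
      ((1 - e : Module.End T V).codRestrict L' (fun x => ?_)) ?_
    · show e ((1 - e) x) = 0
      rw [LinearMap.sub_apply, Module.End.one_apply, map_sub, ← Module.End.mul_apply, he.eq, sub_self]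
    · ext ⟨x, hx⟩
      show (1 - e) x = x
      have hx0 : e x = 0 := hx
      rw [LinearMap.sub_apply, Module.End.one_apply, hx0, sub_zero]
  haveI : Module.Free T ↥L := Module.free_of_flat_of_isLocalRing
  haveI : Module.Free T ↥L' := Module.free_of_flat_of_isLocalRing
  have hsum : Module.finrank T ↥L + Module.finrank T ↥L' = 2 := by
    rw [← h2, ← Module.finrank_prod]
    exact (Submodule.prodEquivOfIsCompl L L' hc).finrank_eq
  have hLne : Module.finrank T ↥L ≠ 0 := by
    intro h
    rw [Module.finrank_eq_zero_iff_of_free, Submodule.subsingleton_iff_eq_bot, hL,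
      LinearMap.range_eq_bot] at h
    exact h0 h
  have hL'ne : Module.finrank T ↥L' ≠ 0 := by
    intro h
    rw [Module.finrank_eq_zero_iff_of_free, Submodule.subsingleton_iff_eq_bot, hL',
      LinearMap.ker_eq_bot] at h
    apply h1
    ext x
    apply h
    rw [← Module.End.mul_apply, he.eq, Module.End.one_apply]
  have hr1 : Module.finrank T ↥L = 1 := by omega
  have hr2 : Module.finrank T ↥L' = 1 := by omega
  let b1 : Module.Basis (Fin 1) T ↥L := Module.finBasisOfFinrankEq T ↥L hr1
  let b2 : Module.Basis (Fin 1) T ↥L' := Module.finBasisOfFinrankEq T ↥L' hr2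
  let b12 : Module.Basis (Fin 1 ⊕ Fin 1) T V :=
    (b1.prod b2).map (Submodule.prodEquivOfIsCompl L L' hc)
  let ε : Fin 1 ⊕ Fin 1 ≃ Fin 2 := finSumFinEquiv
  let b : Module.Basis (Fin 2) T V := b12.reindex ε
  refine ⟨b, ?_⟩
  have hb0 : b 0 = ((b1 0 : ↥L) : V) := by
    have h3 : ε.symm (0 : Fin 2) = Sum.inl (0 : Fin 1) := by
      rw [Equiv.symm_apply_eq]
      rfl
    show b12.reindex ε 0 = _
    rw [Module.Basis.reindex_apply, h3]
    show (Submodule.prodEquivOfIsCompl L L' hc) ((b1.prod b2) (Sum.inl 0)) = _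
    rw [Module.Basis.prod_apply]
    simp
  rw [hb0]
  apply le_antisymm
  · rintro x hx
    have h4 : (⟨x, hx⟩ : ↥L) ∈ Submodule.span T (Set.range b1) := by
      rw [b1.span_eq]
      trivial
    have h5 : Set.range b1 = {b1 0} := by
      ext y
      constructor
      · rintro ⟨i, rfl⟩
        rw [Subsingleton.elim i 0]
        rfl
      · rintro rfl
        exact ⟨0, rfl⟩
    rw [h5, Submodule.mem_span_singleton] at h4
    obtain ⟨a, ha⟩ := h4
    rw [Submodule.mem_span_singleton]
    refine ⟨a, ?_⟩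
    have := congrArg (fun z : ↥L => (z : V)) ha
    exact this
  · rw [Submodule.span_singleton_le_iff_mem]
    exact (b1 0).2

/-- the line attached to an element with a quadratic relation -/
theorem s33_line (h2 : Module.finrank T V = 2) (f : Module.End T V) (hf : IsUnit f) (u : T)
    (hu : u * (LinearMap.det f - 1) = 1)
    (hq : (f - LinearMap.det f • (1 : Module.End T V)) * (f - 1) = 0) :
    ∃ b : Module.Basis (Fin 2) T V, ∀ y : V,
      y ∈ Submodule.span T {b 0} ↔ f y = LinearMap.det f • y := by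
  classical
  set d := LinearMap.det f with hd
  have hdu : IsUnit d := by
    obtain ⟨g, hg⟩ := hf
    have h1 : d * LinearMap.det ((g⁻¹ : (Module.End T V)ˣ) : Module.End T V) = 1 := by
      rw [hd, ← hg, ← map_mul, ← Units.val_mul, mul_inv_cancel, Units.val_one, map_one]
    exact IsUnit.of_mul_eq_one _ h1
  have he := s33_idem f d u hu hq
  set e : Module.End T V := u • (f - 1) with hedef
  have hd1 : (d - 1) • e = f - 1 := by
    rw [hedef, smul_smul, mul_comm, hu, one_smul]
  have h0 : e ≠ 0 := by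
    intro h
    rw [h, smul_zero] at hd1
    have hf1 : f = 1 := (sub_eq_zero.1 hd1.symm)
    have : d = 1 := by rw [hd, hf1, map_one]
    rw [this, sub_self, mul_zero] at hu
    exact zero_ne_one hu
  have h1 : e ≠ 1 := by
    intro h
    rw [h] at hd1
    have hf1 : f = d • (1 : Module.End T V) := by
      have : f = (d - 1) • (1 : Module.End T V) + 1 := by rw [hd1]; abel
      rw [this, sub_smul, one_smul]
      abel
    have hdd : d = d ^ 2 := by
      conv_lhs => rw [hd, hf1, LinearMap.det_smul, h2, map_one, mul_one]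
    have h3 : d * (d - 1) = 0 := by
      have : d * (d - 1) = d ^ 2 - d := by ring
      rw [this, ← hdd, sub_self]
    have h4 : d = 0 := by
      have := congrArg (fun z => z * u) h3
      simp only [zero_mul] at this
      rw [mul_assoc, mul_comm (d - 1) u, hu, mul_one] at this
      exact this
    rw [h4] at hdu
    exact not_isUnit_zero hdu
  obtain ⟨b, hb⟩ := s33_basis_of_idem h2 e he h0 h1
  refine ⟨b, fun y => ?_⟩
  rw [← hb]
  constructor
  · rintro ⟨x, rfl⟩
    -- `(f - d) (e x) = 0`
    have h5 : (f - d • (1 : Module.End T V)) (e x) = 0 := by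
      rw [hedef, LinearMap.smul_apply, map_smul, ← Module.End.mul_apply, hq, LinearMap.zero_apply,
        smul_zero]
    have h6 : f (e x) - d • e x = 0 := h5
    exact sub_eq_zero.1 h6
  · intro hy
    refine ⟨y, ?_⟩
    have h7 : d • y - y = (d - 1) • y := by rw [sub_smul, one_smul]
    rw [hedef, LinearMap.smul_apply, LinearMap.sub_apply, Module.End.one_apply, hy, h7,
      smul_smul, hu, one_smul]

end Algebra

section Rep

variable {A : Type} [CommRing A] [IsLocalRing A] [IsNoetherianRing A]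

/-- inertia is normalised by the decomposition group -/
theorem s33_conj_mem (P : ValuationSubring Qb) {σ t : GQ} (hσ : σ ∈ P.decompositionSubgroup ℚ)
    (ht : t ∈ P.inertiaSubgroupIn ℚ) : σ * t * σ⁻¹ ∈ P.inertiaSubgroupIn ℚ := by
  obtain ⟨t', ht', rfl⟩ := ht
  have h1 : (⟨σ, hσ⟩ : ↥(P.decompositionSubgroup ℚ)) * t' * (⟨σ, hσ⟩ : ↥(P.decompositionSubgroup ℚ))⁻¹ ∈
      P.inertiaSubgroup ℚ :=
    (MonoidHom.normal_ker _ : (P.inertiaSubgroup ℚ).Normal).conj_mem t' ht' _
  exact ⟨_, h1, rfl⟩

/-- **ordinarity from the inertia identity** -/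
theorem s33_isOrdinaryAt_of_identity (ρ : GaloisRepAdic A) (p : ℕ)
    (h : ∀ P : ValuationSubring Qb, P.LiesOverPrime p →
      (∃ σ0 ∈ P.inertiaSubgroupIn ℚ, IsUnit (LinearMap.det (ρ.ρ σ0) - 1)) ∧
      ∀ σ ∈ P.inertiaSubgroupIn ℚ, ∀ τ ∈ P.inertiaSubgroupIn ℚ,
        (ρ.ρ τ - LinearMap.det (ρ.ρ τ) • (1 : Module.End A ρ.V)) * (ρ.ρ σ - 1) = 0) :
    ρ.IsOrdinaryAt p := by
  intro P hP
  obtain ⟨⟨σ0, hσ0, hunit⟩, hid⟩ := h P hP
  obtain ⟨u', hu'⟩ := hunit
  have hu : ((u'⁻¹ : Aˣ) : A) * (LinearMap.det (ρ.ρ σ0) - 1) = 1 := by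
    rw [← hu', Units.inv_mul]
  have hf : IsUnit (ρ.ρ σ0) := by
    refine IsUnit.of_mul_eq_one (ρ.ρ σ0⁻¹) ?_
    rw [← map_mul, mul_inv_cancel, map_one]
  obtain ⟨b, hb⟩ := s33_line ρ.finrank_eq (ρ.ρ σ0) hf _ hu (hid σ0 hσ0 σ0 hσ0)
  -- the key membership
  have hkey : ∀ σ ∈ P.inertiaSubgroupIn ℚ, ∀ v : ρ.V,
      ρ.ρ σ v - v ∈ Submodule.span A {b 0} := by
    intro σ hσ v
    rw [hb]
    have h1 := congrArg (fun g : Module.End A ρ.V => g v) (hid σ hσ σ0 hσ0)
    simp only [Module.End.mul_apply, LinearMap.sub_apply, LinearMap.smul_apply,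
      Module.End.one_apply, LinearMap.zero_apply] at h1
    exact sub_eq_zero.1 h1
  refine ⟨Submodule.span A {b 0}, ⟨b, rfl⟩, ?_, hkey⟩
  intro σ hσ v hv
  rw [hb] at hv
  -- `v = u (f - 1) v`
  have hv' : v = ((u'⁻¹ : Aˣ) : A) • (ρ.ρ σ0 v - v) := by
    have h7 : LinearMap.det (ρ.ρ σ0) • v - v = (LinearMap.det (ρ.ρ σ0) - 1) • v := by
      rw [sub_smul, one_smul]
    rw [hv, h7, smul_smul, hu, one_smul]
  have hconj := s33_conj_mem P hσ hσ0
  have h2 := hkey _ hconj (ρ.ρ σ v)
  have h3 : ρ.ρ (σ * σ0 * σ⁻¹) (ρ.ρ σ v) = ρ.ρ σ (ρ.ρ σ0 v) := by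
    rw [← Module.End.mul_apply, ← map_mul, inv_mul_cancel_right, map_mul, Module.End.mul_apply]
  rw [h3] at h2
  have h4 : ρ.ρ σ v = ((u'⁻¹ : Aˣ) : A) • (ρ.ρ σ (ρ.ρ σ0 v) - ρ.ρ σ v) := by
    conv_lhs => rw [hv']
    rw [map_smul, map_sub]
  rw [h4]
  exact Submodule.smul_mem _ _ h2

end Rep

end Fermat.Agent.S33L
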