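/-
S33 (helper5), reduction (R), second half: **S33 from its points**.

* `s33_isUnit_intCast`, `s33_exists_det_unit` : if `det ρ` is the `p`-adic cyclotomic character and `p`
  is odd, every inertia group at `p` contains `σ₀` with `det ρ(σ₀) - 1` a unit;
* `s33_det_transport`, `s33_identity_transport` : determinants and the inertia identity
  `(ρ(τ) - det ρ(τ)) (ρ(σ) - 1) = 0` are transported along the semilinear maps of `alpy_rigid_datum`;
* `S33Point p H P` : the per-point statement (a representation with the Frobenius polynomials of the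
  point `P`, cyclotomic determinant and the inertia identity at `p`);
* `s33_of_points` : if every point of `T` satisfies `S33Point`, then `H.ρ.IsOrdinaryAt p`
  (`T` is reduced: `alpz_isReduced`; its points are jointly injective: `alpq_exists_points`).
-/
import Mathlib
import Fermat.Agent.Lib.S33.Reduce
import Fermat.Agent.Lib.TW.Local.CycloRamified
import Fermat.Agent.Lib.T1.Asm.DetTrick
import Fermat.Agent.Lib.Alpha.S32.Points
import Fermat.Agent.Lib.Alpha.S32.Reduced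
import Fermat.Agent.Lib.Alpha.S32.Rigid

set_option autoImplicit false
set_option linter.unusedSectionVars false
set_option linter.unusedVariables false
set_option linter.style.haveILetI false

namespace Fermat.Agent.S33L

open IsLocalRing Polynomial Fermat.Agent.Alpha

local notation "Qb" => AlgebraicClosure ℚ
local notation "GQ" => (AlgebraicClosure ℚ ≃ₐ[ℚ] AlgebraicClosure ℚ)

section Det

variable {A : Type} [CommRing A] [IsLocalRing A]

/-- an integer prime to `p` is a unit of a local ring of residue characteristic `p` -/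
theorem s33_isUnit_intCast {p : ℕ} (hp : p.Prime) (hpA : (p : A) ∈ maximalIdeal A) (z : ℤ)
    (hz : ¬ (p : ℤ) ∣ z) : IsUnit (z : A) := by
  have hcop : IsCoprime z (p : ℤ) :=
    ((Nat.prime_iff_prime_int.1 hp).coprime_iff_not_dvd.2 hz).symm
  obtain ⟨x, y, hxy⟩ := hcop
  have h1 : (x : A) * (z : A) = 1 - (y : A) * (p : A) := by
    have := congrArg (fun n : ℤ => (n : A)) hxy
    push_cast at this
    rw [← this]
    ring
  have h2 : IsUnit ((x : A) * (z : A)) := by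
    rw [h1]
    by_contra hnu
    have h3 : 1 - (y : A) * (p : A) ∈ maximalIdeal A := (mem_maximalIdeal _).2 hnu
    have h4 : (1 : A) ∈ maximalIdeal A := by
      have := Ideal.add_mem _ h3 (Ideal.mul_mem_left _ (y : A) hpA)
      rwa [sub_add_cancel] at this
    exact (maximalIdeal.isMaximal A).ne_top ((Ideal.eq_top_iff_one _).2 h4)
  exact isUnit_of_mul_isUnit_right h2

/-- **inertia at `p` sees the determinant**: if the determinant is cyclotomic and `p` is odd, some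
element of every inertia group at `p` has determinant `≢ 1` -/
theorem s33_exists_det_unit (ρ : GaloisRepAdic A) (p : ℕ) [Fact p.Prime] (h3 : 3 ≤ p)
    (hdet : ρ.DetIsCyclotomic p) (P : ValuationSubring Qb) (hP : P.LiesOverPrime p) :
    ∃ σ0 ∈ P.inertiaSubgroupIn ℚ, IsUnit (LinearMap.det (ρ.ρ σ0) - 1) := by
  have hp : p.Prime := Fact.out
  haveI : NeZero p := ⟨hp.ne_zero⟩
  obtain ⟨σ0, hσ0, hne⟩ := Fermat.Agent.TW.tw_exists_inertia_cycloChar_ne_one p h3 P hP
  refine ⟨σ0, hσ0, ?_⟩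
  have hex : ∃ t : Qb, t ^ p = 1 ∧ σ0 t ≠ t := by
    by_contra h
    push Not at h
    exact hne (Fermat.Agent.CFT.Bridge.cycloChar_eq_one_of_fixes p σ0 h)
  obtain ⟨t, htp, htne⟩ := hex
  obtain ⟨a, ha⟩ := Fermat.Agent.T1.te_exists_exponent σ0 p
  have hna : ¬ (p : ℤ) ∣ ((a : ℤ) - 1) := by
    intro hdvd
    apply htne
    rw [ha t htp]
    have h1 : (a : ℤ) ≡ 1 [ZMOD p] := (Int.modEq_iff_dvd.2 hdvd).symm
    have h2 : a ≡ 1 [MOD p] := by exact_mod_cast h1
    have h3 : t ^ a = t ^ 1 := pow_eq_pow_of_modEq h2 htp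
    rw [h3, pow_one]
  have hunit := s33_isUnit_intCast hp hdet.1 ((a : ℤ) - 1) hna
  have hmem : LinearMap.det (ρ.ρ σ0) - (a : A) ∈ maximalIdeal A := by
    have h1 := hdet.2 1 σ0 a (fun μ hμ => ha μ (by rwa [pow_one] at hμ))
    rw [pow_one, Ideal.mem_span_singleton] at h1
    obtain ⟨c, hc⟩ := h1
    rw [hc]
    exact Ideal.mul_mem_right _ _ hdet.1
  have hsplit : LinearMap.det (ρ.ρ σ0) - 1 =
      (((a : ℤ) - 1 : ℤ) : A) + (LinearMap.det (ρ.ρ σ0) - (a : A)) := by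
    push_cast
    ring
  rw [hsplit]
  by_contra hnu
  have h5 : (((a : ℤ) - 1 : ℤ) : A) + (LinearMap.det (ρ.ρ σ0) - (a : A)) ∈ maximalIdeal A :=
    (mem_maximalIdeal _).2 hnu
  have h6 : (((a : ℤ) - 1 : ℤ) : A) ∈ maximalIdeal A := by
    have := Ideal.sub_mem _ h5 hmem
    rwa [add_sub_cancel_right] at this
  exact (mem_maximalIdeal _).1 h6 hunit

end Det

section Transport

variable {T A : Type} [CommRing T] [IsLocalRing T] [CommRing A] [IsLocalRing A]
  (ρ : GaloisRepAdic T) (ρ' : GaloisRepAdic A) (φ : T →+* A) (j : ρ.V →+ ρ'.V)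
  (hj : ∀ (t : T) (v : ρ.V), j (t • v) = φ t • j v)
  (hjσ : ∀ (σ : GQ) (v : ρ.V), j (ρ.ρ σ v) = ρ'.ρ σ (j v))
  (b : Module.Basis (Fin 2) T ρ.V) (b' : Module.Basis (Fin 2) A ρ'.V)
  (hb : ∀ i, b' i = j (b i))
  (hrepr : ∀ (v : ρ.V) (i : Fin 2), b'.repr (j v) i = φ (b.repr v i))

include hjσ hb hrepr in
/-- determinants are compatible with a semilinear equivariant map respecting bases -/
theorem s33_det_transport (σ : GQ) :
    φ (LinearMap.det (ρ.ρ σ)) = LinearMap.det (ρ'.ρ σ) := by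
  classical
  rw [← LinearMap.det_toMatrix b, ← LinearMap.det_toMatrix b', RingHom.map_det]
  congr 1
  ext i k
  rw [RingHom.mapMatrix_apply, Matrix.map_apply, LinearMap.toMatrix_apply,
    LinearMap.toMatrix_apply, hb, ← hjσ, hrepr]

include hj hjσ hb hrepr in
/-- the inertia identity is transported -/
theorem s33_identity_transport (σ τ : GQ)
    (h : (ρ'.ρ τ - LinearMap.det (ρ'.ρ τ) • (1 : Module.End A ρ'.V)) * (ρ'.ρ σ - 1) = 0)
    (v : ρ.V) (i : Fin 2) :
    φ (b.repr (((ρ.ρ τ - LinearMap.det (ρ.ρ τ) • (1 : Module.End T ρ.V)) * (ρ.ρ σ - 1)) v) i)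
      = 0 := by
  have hdet := s33_det_transport ρ ρ' φ j hjσ b b' hb hrepr τ
  have h1 : j (((ρ.ρ τ - LinearMap.det (ρ.ρ τ) • (1 : Module.End T ρ.V)) * (ρ.ρ σ - 1)) v) =
      ((ρ'.ρ τ - LinearMap.det (ρ'.ρ τ) • (1 : Module.End A ρ'.V)) * (ρ'.ρ σ - 1)) (j v) := by
    simp only [Module.End.mul_apply, LinearMap.sub_apply, LinearMap.smul_apply,
      Module.End.one_apply, map_sub, hj, hjσ, hdet]
  rw [← hrepr, h1, h, LinearMap.zero_apply, map_zero, Finsupp.zero_apply]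

end Transport

section Datum

variable {p : ℕ} {N : ℕ} [NeZero N] {S : Finset ℕ}
  {𝒪 : Type} [CommRing 𝒪] [IsDomain 𝒪] [IsDiscreteValuationRing 𝒪]
  [IsAdicComplete (IsLocalRing.maximalIdeal 𝒪) 𝒪]
  {θ : CuspForm.heckeAlgebra N 2 (↑S : Set ℕ) →+* IsLocalRing.ResidueField 𝒪}
  {T : Type} [CommRing T] [IsLocalRing T] [IsNoetherianRing T]
  [IsAdicComplete (IsLocalRing.maximalIdeal T) T] [Algebra 𝒪 T] [IsLocalHom (algebraMap 𝒪 T)]
  [Module.Finite 𝒪 T] [Module.Free 𝒪 T]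

/-- the per-point statement: a representation over a Noetherian local ring receiving the point, with
the Frobenius polynomials of the point, cyclotomic determinant, and the inertia identity at `p` -/
def S33Point (p : ℕ) (H : CuspForm.HeckeGaloisRepDatum N (↑S : Set ℕ) 𝒪 θ T)
    (P : AlpqPoint 𝒪 T) : Prop :=
  ∃ (A : Type) (_ : CommRing A) (_ : IsLocalRing A) (_ : IsNoetherianRing A) (f : P.R →+* A)
    (_ : IsLocalHom f), Function.Injective f ∧ ∃ ρ' : GaloisRepAdic A,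
      (∀ (ℓ : ℕ) (hℓ : ℓ.Prime) (hℓN : ¬ ℓ ∣ N) (hℓS : ℓ ∉ (↑S : Set ℕ)),
        ∀ Pv : ValuationSubring Qb, Pv.LiesOverPrime ℓ → ∀ σ : GQ, Pv.IsFrobeniusAt σ ℓ →
        LinearMap.charpoly (ρ'.ρ σ) =
          X ^ 2 - C (f (P.ψ (H.π (CuspForm.heckeAlgebra.T hℓ hℓN hℓS)))) * X + C ((ℓ : A))) ∧
      ρ'.DetIsCyclotomic p ∧
      ∀ Pv : ValuationSubring Qb, Pv.LiesOverPrime p →
        ∀ σ ∈ Pv.inertiaSubgroupIn ℚ, ∀ τ ∈ Pv.inertiaSubgroupIn ℚ,
          (ρ'.ρ τ - LinearMap.det (ρ'.ρ τ) • (1 : Module.End A ρ'.V)) * (ρ'.ρ σ - 1) = 0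

/-- **S33 from its points**: if every point of `T` satisfies `S33Point`, then `H.ρ` is ordinary at
the odd prime `p` -/
theorem s33_of_points [Finite (IsLocalRing.ResidueField 𝒪)] [CharZero 𝒪]
    (hp : p.Prime) (hp2 : p ≠ 2) (hNS : ∀ q : ℕ, q.Prime → q ∣ N → q ∈ S)
    (H : CuspForm.HeckeGaloisRepDatum N (↑S : Set ℕ) 𝒪 θ T)
    (hpt : ∀ P : AlpqPoint 𝒪 T, S33Point p H P) : H.ρ.IsOrdinaryAt p := by
  classical
  haveI : Fact p.Prime := ⟨hp⟩
  have h3 : 3 ≤ p := by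
    have := hp.two_le
    omega
  haveI : IsReduced T := alpz_isReduced hNS H
  obtain ⟨n, P, hP⟩ := alpq_exists_points (𝒪 := 𝒪) (T := T)
  let b : Module.Basis (Fin 2) T H.ρ.V := Module.finBasisOfFinrankEq T H.ρ.V H.ρ.finrank_eq
  -- the data at each point
  have hdata : ∀ Q : AlpqPoint 𝒪 T, ∃ (A : Type) (_ : CommRing A) (_ : IsLocalRing A)
      (φ : T →+* A) (_ : IsLocalHom φ),
      (∀ t : T, φ t = 0 → Q.ψ t = 0) ∧
      (∀ Pv : ValuationSubring Qb, Pv.LiesOverPrime p →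
        ∃ σ0 ∈ Pv.inertiaSubgroupIn ℚ, IsUnit (φ (LinearMap.det (H.ρ.ρ σ0) - 1))) ∧
      ∀ Pv : ValuationSubring Qb, Pv.LiesOverPrime p →
        ∀ σ ∈ Pv.inertiaSubgroupIn ℚ, ∀ τ ∈ Pv.inertiaSubgroupIn ℚ, ∀ (v : H.ρ.V) (i : Fin 2),
          φ (b.repr (((H.ρ.ρ τ - LinearMap.det (H.ρ.ρ τ) • (1 : Module.End T H.ρ.V)) *
            (H.ρ.ρ σ - 1)) v) i) = 0 := by
    intro Q
    obtain ⟨A, iA, iL, iN, f, hf, hinj, ρ', hchar, hcyc, hid⟩ := hpt Q
    haveI := Q.isLocalHom_ψ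
    have hφ : IsLocalHom (f.comp (Q.ψ : T →+* Q.R)) :=
      RingHom.isLocalHom_comp f (Q.ψ : T →+* Q.R)
    obtain ⟨j, hj, hjσ, hbas⟩ := alpy_rigid_datum hNS H (f.comp (Q.ψ : T →+* Q.R)) hφ ρ' hchar
    obtain ⟨b', hb', hrepr⟩ := hbas (Fin 2) b
    refine ⟨A, iA, iL, f.comp (Q.ψ : T →+* Q.R), hφ, ?_, ?_, ?_⟩
    · intro t ht
      exact (map_eq_zero_iff f hinj).1 ht
    · intro Pv hPv
      obtain ⟨σ0, hσ0, hu⟩ := s33_exists_det_unit ρ' p h3 hcyc Pv hPv
      refine ⟨σ0, hσ0, ?_⟩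
      rw [map_sub, map_one,
        s33_det_transport H.ρ ρ' (f.comp (Q.ψ : T →+* Q.R)) j hjσ b b' hb' hrepr σ0]
      exact hu
    · intro Pv hPv σ hσ τ hτ v i
      exact s33_identity_transport H.ρ ρ' (f.comp (Q.ψ : T →+* Q.R)) j hj hjσ b b' hb' hrepr σ τ
        (hid Pv hPv σ hσ τ hτ) v i
  apply s33_isOrdinaryAt_of_identity
  intro Pv hPv
  constructor
  · -- a unit determinant: use any point
    have hn : 0 < n := by
      rcases Nat.eq_zero_or_pos n with h0 | h0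
      · exfalso
        subst h0
        have : (1 : T) = 0 := hP 1 (fun i => i.elim0)
        exact one_ne_zero this
      · exact h0
    obtain ⟨A, iA, iL, φ, hφ, -, hdet, -⟩ := hdata (P ⟨0, hn⟩)
    obtain ⟨σ0, hσ0, hu⟩ := hdet Pv hPv
    exact ⟨σ0, hσ0, (isUnit_map_iff φ _).1 hu⟩
  · intro σ hσ τ hτ
    apply LinearMap.ext
    intro v
    rw [LinearMap.zero_apply]
    apply b.repr.injective
    ext i
    rw [map_zero, Finsupp.zero_apply]
    apply hP
    intro k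
    obtain ⟨A, iA, iL, φ, hφ, hker, -, hid⟩ := hdata (P k)
    exact hker _ (hid Pv hPv σ hσ τ hτ v i)

end Datum

end Fermat.Agent.S33L
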