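/-
S33 (helper5), package (P): **the pointwise argument** (pure algebra over a discrete valuation ring).

`Λ` free of rank two over a discrete valuation ring `A`, `r : G → End_A(Λ)`, `I ≤ G`, `L ⊆ Λ` a
saturated proper submodule with `(r σ - 1) Λ ⊆ L` for all `σ ∈ I`, and `det r(σ₀) ≠ 1` for some
`σ₀ ∈ I`.  Then `L` is a direct summand of rank one (`Λ ⧸ L` is torsion-free, hence free; rank `0` would
give `det = 1` on `I`), `I` acts on `L` through the determinant (triangular matrix in an adapted basis)
and therefore `(r τ - det r(τ)) (r σ - 1) = 0` for `σ, τ ∈ I` — the hypothesis of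
`s33_isOrdinaryAt_of_identity` / `S33Point`.

* `s33_basis_of_isCompl` : a basis adapted to two complementary submodules of rank one;
* `s33_pointwise` : the statement above (literal form of helper4's msg 1172).
-/
import Mathlib

set_option autoImplicit false
set_option linter.unusedSectionVars false
set_option linter.unusedVariables false
set_option linter.style.haveILetI false

namespace Fermat.Agent.S33L

section Pointwise

variable {A : Type} [CommRing A] [IsDomain A] [IsDiscreteValuationRing A]
  {Λ : Type} [AddCommGroup Λ] [Module A Λ] [Module.Free A Λ] [Module.Finite A Λ]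

/-- a basis adapted to a pair of complementary submodules of rank one -/
theorem s33_basis_of_isCompl (L L' : Submodule A Λ) (hc : IsCompl L L')
    [Module.Free A ↥L] [Module.Finite A ↥L] [Module.Free A ↥L'] [Module.Finite A ↥L']
    (h1 : Module.finrank A ↥L = 1) (h1' : Module.finrank A ↥L' = 1) :
    ∃ b : Module.Basis (Fin 2) A Λ, b 0 ∈ L ∧ b 1 ∈ L' ∧
      (∀ y ∈ L, ∃ t : A, y = t • b 0) := by
  classical
  let b1 : Module.Basis (Fin 1) A ↥L := Module.finBasisOfFinrankEq A ↥L h1
  let b2 : Module.Basis (Fin 1) A ↥L' := Module.finBasisOfFinrankEq A ↥L' h1'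
  let b12 : Module.Basis (Fin 1 ⊕ Fin 1) A Λ :=
    (b1.prod b2).map (Submodule.prodEquivOfIsCompl L L' hc)
  let ε : Fin 1 ⊕ Fin 1 ≃ Fin 2 := finSumFinEquiv
  let b : Module.Basis (Fin 2) A Λ := b12.reindex ε
  have hb0 : b 0 = ((b1 0 : ↥L) : Λ) := by
    have h3 : ε.symm (0 : Fin 2) = Sum.inl (0 : Fin 1) := by
      rw [Equiv.symm_apply_eq]
      rfl
    show b12.reindex ε 0 = _
    rw [Module.Basis.reindex_apply, h3]
    show (Submodule.prodEquivOfIsCompl L L' hc) ((b1.prod b2) (Sum.inl 0)) = _
    rw [Module.Basis.prod_apply]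
    simp
  have hb1 : b 1 = ((b2 0 : ↥L') : Λ) := by
    have h3 : ε.symm (1 : Fin 2) = Sum.inr (0 : Fin 1) := by
      rw [Equiv.symm_apply_eq]
      rfl
    show b12.reindex ε 1 = _
    rw [Module.Basis.reindex_apply, h3]
    show (Submodule.prodEquivOfIsCompl L L' hc) ((b1.prod b2) (Sum.inr 0)) = _
    rw [Module.Basis.prod_apply]
    simp
  refine ⟨b, ?_, ?_, ?_⟩
  · rw [hb0]; exact (b1 0).2
  · rw [hb1]; exact (b2 0).2
  · intro y hy
    have h4 : (⟨y, hy⟩ : ↥L) ∈ Submodule.span A (Set.range b1) := by
      rw [b1.span_eq]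
      trivial
    have h5 : Set.range b1 = {b1 0} := by
      ext z
      constructor
      · rintro ⟨i, rfl⟩
        rw [Subsingleton.elim i 0]
        rfl
      · rintro rfl
        exact ⟨0, rfl⟩
    rw [h5, Submodule.mem_span_singleton] at h4
    obtain ⟨a, ha⟩ := h4
    refine ⟨a, ?_⟩
    rw [hb0]
    have := congrArg (fun z : ↥L => (z : Λ)) ha
    exact this.symm

/-- **the pointwise argument**: a saturated proper submodule `L` of a free module of rank two over a
discrete valuation ring, containing `(σ - 1) Λ` for all `σ` in a subgroup `I` on which the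
determinant is not identically one, is a line on which `I` acts through the determinant -/
theorem s33_pointwise (h2 : Module.finrank A Λ = 2) {G : Type} [Group G]
    (r : G →* Module.End A Λ) (I : Subgroup G) (L : Submodule A Λ)
    (hsat : ∀ (a : A) (x : Λ), a ≠ 0 → a • x ∈ L → x ∈ L)
    (hL : ∀ σ ∈ I, ∀ x, r σ x - x ∈ L) (hne : L ≠ ⊤)
    (hσ0 : ∃ σ0 ∈ I, LinearMap.det (r σ0) ≠ 1) :
    ∀ σ ∈ I, ∀ τ ∈ I,
      (r τ - LinearMap.det (r τ) • (1 : Module.End A Λ)) * (r σ - 1) = 0 := by
  classical
  -- the quotient is torsion-free, hence free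
  haveI hQtf : Module.IsTorsionFree A (Λ ⧸ L) := by
    refine ⟨fun a ha x y hxy => ?_⟩
    induction x using Submodule.Quotient.induction_on with
    | H x =>
      induction y using Submodule.Quotient.induction_on with
      | H y =>
        have ha0 : a ≠ 0 := ha.ne_zero
        have h1 : a • (x - y) ∈ L := by
          have h2' : (Submodule.Quotient.mk (a • x) : Λ ⧸ L) = Submodule.Quotient.mk (a • y) := hxy
          rw [Submodule.Quotient.eq] at h2'
          rwa [smul_sub]
        exact (Submodule.Quotient.eq L).2 (hsat a _ ha0 h1)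
  haveI : Module.Free A (Λ ⧸ L) := Module.free_of_finite_type_torsion_free'
  -- a section
  obtain ⟨s, hs⟩ := Module.projective_lifting_property L.mkQ (LinearMap.id : (Λ ⧸ L) →ₗ[A] (Λ ⧸ L))
    (Submodule.mkQ_surjective L)
  have hs' : ∀ q, L.mkQ (s q) = q := fun q => by
    have := congrArg (fun f : (Λ ⧸ L) →ₗ[A] (Λ ⧸ L) => f q) hs
    exact this
  have hsinj : Function.Injective s := fun q q' h => by
    rw [← hs' q, ← hs' q', h]
  set L' : Submodule A Λ := LinearMap.range s with hL'
  have hc : IsCompl L L' := by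
    constructor
    · rw [disjoint_iff, eq_bot_iff]
      rintro x ⟨hx, ⟨q, rfl⟩⟩
      have h1 : L.mkQ (s q) = 0 := (Submodule.Quotient.mk_eq_zero L).2 hx
      rw [hs'] at h1
      rw [h1, map_zero]
      exact Submodule.zero_mem _
    · rw [codisjoint_iff, eq_top_iff]
      intro x _
      have h1 : x - s (L.mkQ x) ∈ L := by
        rw [← Submodule.Quotient.mk_eq_zero L]
        show L.mkQ (x - s (L.mkQ x)) = 0
        rw [map_sub, hs', sub_self]
      have : x = (x - s (L.mkQ x)) + s (L.mkQ x) := by abel
      rw [this]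
      exact Submodule.add_mem_sup h1 ⟨_, rfl⟩
  haveI : Module.Free A ↥L' := Module.Free.of_equiv (LinearEquiv.ofInjective s hsinj)
  haveI : Module.Free A ↥L := Module.free_of_finite_type_torsion_free'
  have hsum : Module.finrank A ↥L + Module.finrank A ↥L' = 2 := by
    rw [← h2, ← Module.finrank_prod]
    exact (Submodule.prodEquivOfIsCompl L L' hc).finrank_eq
  have hL'ne : Module.finrank A ↥L' ≠ 0 := by
    intro h
    rw [Module.finrank_eq_zero_iff_of_free, Submodule.subsingleton_iff_eq_bot] at h
    apply hne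
    have := hc.sup_eq_top
    rwa [h, sup_bot_eq] at this
  have hLne : Module.finrank A ↥L ≠ 0 := by
    intro h
    rw [Module.finrank_eq_zero_iff_of_free, Submodule.subsingleton_iff_eq_bot] at h
    obtain ⟨σ0, hσ0I, hdet⟩ := hσ0
    apply hdet
    have h1 : r σ0 = 1 := by
      ext x
      have := hL σ0 hσ0I x
      rw [h, Submodule.mem_bot, sub_eq_zero] at this
      rw [this, Module.End.one_apply]
    rw [h1, map_one]
  have hr1 : Module.finrank A ↥L = 1 := by omega
  have hr2 : Module.finrank A ↥L' = 1 := by omega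
  obtain ⟨b, hb0, hb1, hbL⟩ := s33_basis_of_isCompl L L' hc hr1 hr2
  -- `I` acts on `L` through the determinant
  have hact : ∀ τ ∈ I, ∀ y ∈ L, r τ y = LinearMap.det (r τ) • y := by
    intro τ hτ y hy
    have hg0 : r τ (b 0) ∈ L := by
      have := Submodule.add_mem L (hL τ hτ (b 0)) hb0
      rwa [sub_add_cancel] at this
    obtain ⟨c, hc0⟩ := hbL _ hg0
    obtain ⟨a, ha⟩ := hbL _ (hL τ hτ (b 1))
    have hg1 : r τ (b 1) = b 1 + a • b 0 := by
      rw [← ha]; abel
    have hdet : LinearMap.det (r τ) = c := by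
      rw [← LinearMap.det_toMatrix b, Matrix.det_fin_two]
      simp only [LinearMap.toMatrix_apply, hc0, hg1, map_add, map_smul, Module.Basis.repr_self,
        Finsupp.smul_apply, Finsupp.add_apply, Finsupp.single_apply]
      simp
    obtain ⟨t, rfl⟩ := hbL y hy
    rw [map_smul, hc0, hdet, smul_comm]
  intro σ hσ τ hτ
  ext x
  rw [Module.End.mul_apply, LinearMap.sub_apply, LinearMap.smul_apply, Module.End.one_apply,
    LinearMap.sub_apply, Module.End.one_apply, LinearMap.zero_apply,
    hact τ hτ _ (hL σ hσ x), sub_self]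

end Pointwise

end Fermat.Agent.S33L
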