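/-
S33, p-old half (helper6): linear algebra over a discrete valuation ring used by
`s33f_ordinary_of_flat`.

For a free module `V` of rank two over a discrete valuation ring `A` with uniformiser `ϖ` and a
non-zero submodule `N`, either `N` has full rank (`ϖ ^ c • V ⊆ N` for some `c`), or `N` is contained
in a line `A ∙ b 0` for a basis `b` of `V`, some `ϖ ^ m • b 0` lying in `N` (so that the line is the
saturation of `N`).
-/
import Mathlib

set_option autoImplicit false

namespace Fermat.Agent.S33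

variable {A : Type*} [CommRing A] {V : Type*} [AddCommGroup V] [Module A V]

/-- membership in the line spanned by the first vector of a basis -/
theorem s33f_mem_span_basis_zero_iff (b : Module.Basis (Fin 2) A V) (v : V) :
    v ∈ Submodule.span A {b 0} ↔ b.repr v 1 = 0 := by
  constructor
  · intro h
    obtain ⟨a, rfl⟩ := Submodule.mem_span_singleton.mp h
    rw [map_smul, Module.Basis.repr_self, Finsupp.smul_apply, Finsupp.single_apply]
    simp
  · intro h
    have h1 := b.sum_repr v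
    rw [Fin.sum_univ_two, h, zero_smul, add_zero] at h1
    rw [← h1]
    exact Submodule.smul_mem _ _ (Submodule.mem_span_singleton_self _)

/-- a vector with an invertible coordinate is the first vector of a basis -/
theorem s33f_exists_basis_of_isUnit_coord (e : Module.Basis (Fin 2) A V) (w : V) (i : Fin 2)
    (hw : IsUnit (e.repr w i)) : ∃ b : Module.Basis (Fin 2) A V, b 0 = w := by
  classical
  -- the other index
  obtain ⟨j, hij⟩ : ∃ j : Fin 2, j ≠ i := by
    fin_cases i
    · exact ⟨1, by decide⟩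
    · exact ⟨0, by decide⟩
  set f : V →ₗ[A] V := e.constr A ![w, e j] with hf
  have hf0 : f (e 0) = w := by rw [hf, Module.Basis.constr_basis]; rfl
  have hf1 : f (e 1) = e j := by rw [hf, Module.Basis.constr_basis]; rfl
  have hdet : IsUnit (LinearMap.toMatrix e e f).det := by
    rw [Matrix.det_fin_two]
    simp only [LinearMap.toMatrix_apply, hf0, hf1, Module.Basis.repr_self]
    fin_cases i
    · have hj : j = 1 := by
        fin_cases j
        · exact absurd rfl hij
        · rfl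
      subst hj
      simpa [Finsupp.single_apply] using hw
    · have hj : j = 0 := by
        fin_cases j
        · rfl
        · exact absurd rfl hij
      subst hj
      simpa [Finsupp.single_apply] using hw
  refine ⟨e.map (LinearEquiv.ofIsUnitDet hdet), ?_⟩
  rw [Module.Basis.map_apply]
  exact hf0

variable [IsDomain A] [IsDiscreteValuationRing A]

/-- two elements of a discrete valuation ring, not both zero, have a common factor `ϖ ^ m` such that
one of the quotients is a unit -/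
theorem s33f_exists_common_pow {ϖ : A} (hϖ : Irreducible ϖ) {x y : A} (hxy : x ≠ 0 ∨ y ≠ 0) :
    ∃ (m : ℕ) (x' y' : A), x = ϖ ^ m * x' ∧ y = ϖ ^ m * y' ∧ (IsUnit x' ∨ IsUnit y') := by
  by_cases hx : x = 0
  · have hy : y ≠ 0 := hxy.resolve_left (fun h => h hx)
    obtain ⟨c, w, hw⟩ := IsDiscreteValuationRing.eq_unit_mul_pow_irreducible hy hϖ
    exact ⟨c, 0, w, by rw [hx, mul_zero], by rw [hw, mul_comm], Or.inr w.isUnit⟩
  by_cases hy : y = 0
  · obtain ⟨a, u, hu⟩ := IsDiscreteValuationRing.eq_unit_mul_pow_irreducible hx hϖ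
    exact ⟨a, u, 0, by rw [hu, mul_comm], by rw [hy, mul_zero], Or.inl u.isUnit⟩
  obtain ⟨a, u, hu⟩ := IsDiscreteValuationRing.eq_unit_mul_pow_irreducible hx hϖ
  obtain ⟨c, w, hw⟩ := IsDiscreteValuationRing.eq_unit_mul_pow_irreducible hy hϖ
  rcases le_total a c with hac | hca
  · refine ⟨a, u, w * ϖ ^ (c - a), by rw [hu, mul_comm], ?_, Or.inl u.isUnit⟩
    rw [hw]
    calc (w : A) * ϖ ^ c = w * ϖ ^ (a + (c - a)) := by rw [Nat.add_sub_cancel' hac]
      _ = ϖ ^ a * (w * ϖ ^ (c - a)) := by rw [pow_add]; ring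
  · refine ⟨c, u * ϖ ^ (a - c), w, ?_, by rw [hw, mul_comm], Or.inr w.isUnit⟩
    rw [hu]
    calc (u : A) * ϖ ^ a = u * ϖ ^ (c + (a - c)) := by rw [Nat.add_sub_cancel' hca]
      _ = ϖ ^ c * (u * ϖ ^ (a - c)) := by rw [pow_add]; ring

/-- a non-zero vector of a free module of rank two over a discrete valuation ring is a power of the
uniformiser times the first vector of a basis -/
theorem s33f_exists_basis_of_ne_zero (e : Module.Basis (Fin 2) A V) {ϖ : A} (hϖ : Irreducible ϖ)
    {n : V} (hn : n ≠ 0) :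
    ∃ (b : Module.Basis (Fin 2) A V) (m : ℕ), n = ϖ ^ m • b 0 := by
  classical
  have hsum := e.sum_repr n
  rw [Fin.sum_univ_two] at hsum
  have hne : e.repr n 0 ≠ 0 ∨ e.repr n 1 ≠ 0 := by
    by_contra hcon
    push Not at hcon
    apply hn
    rw [hcon.1, hcon.2, zero_smul, zero_smul, add_zero] at hsum
    exact hsum.symm
  obtain ⟨m, x', y', hx, hy, hunit⟩ := s33f_exists_common_pow hϖ hne
  set w₀ : V := x' • e 0 + y' • e 1 with hw₀
  have hn' : n = ϖ ^ m • w₀ := by
    rw [← hsum, hx, hy, hw₀, smul_add, smul_smul, smul_smul]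
  have hc0 : e.repr w₀ 0 = x' := by
    rw [hw₀, map_add, map_smul, map_smul, Module.Basis.repr_self, Module.Basis.repr_self]
    simp
  have hc1 : e.repr w₀ 1 = y' := by
    rw [hw₀, map_add, map_smul, map_smul, Module.Basis.repr_self, Module.Basis.repr_self]
    simp
  rcases hunit with h | h
  · obtain ⟨b, hb⟩ := s33f_exists_basis_of_isUnit_coord e w₀ 0 (by rw [hc0]; exact h)
    exact ⟨b, m, by rw [hb]; exact hn'⟩
  · obtain ⟨b, hb⟩ := s33f_exists_basis_of_isUnit_coord e w₀ 1 (by rw [hc1]; exact h)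
    exact ⟨b, m, by rw [hb]; exact hn'⟩

/-- **the dichotomy**: a non-zero submodule of a free module of rank two over a discrete valuation
ring either contains `ϖ ^ c • V` or lies in a line `A ∙ b 0` (`b` a basis) of which it contains a
non-zero multiple `ϖ ^ m • b 0` -/
theorem s33f_dichotomy (e : Module.Basis (Fin 2) A V) {ϖ : A} (hϖ : Irreducible ϖ)
    (N : Submodule A V) (hN : N ≠ ⊥) :
    (∃ c : ℕ, ∀ v : V, ϖ ^ c • v ∈ N) ∨
      ∃ (b : Module.Basis (Fin 2) A V) (m : ℕ), ϖ ^ m • b 0 ∈ N ∧ N ≤ Submodule.span A {b 0} := by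
  classical
  obtain ⟨n₁, hn₁N, hn₁⟩ := Submodule.exists_mem_ne_zero_of_ne_bot hN
  obtain ⟨b, m, hb⟩ := s33f_exists_basis_of_ne_zero e hϖ hn₁
  by_cases hall : N ≤ Submodule.span A {b 0}
  · exact Or.inr ⟨b, m, hb ▸ hn₁N, hall⟩
  left
  obtain ⟨n, hnN, hn⟩ := SetLike.not_le_iff_exists.mp hall
  rw [s33f_mem_span_basis_zero_iff] at hn
  -- `ϖ ^ m • β • b 1 ∈ N`
  obtain ⟨c, w, hw⟩ := IsDiscreteValuationRing.eq_unit_mul_pow_irreducible hn hϖ
  have hsum := b.sum_repr n
  rw [Fin.sum_univ_two] at hsum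
  have h1 : (ϖ ^ m * b.repr n 1) • b 1 ∈ N := by
    have h2 : ϖ ^ m • n - b.repr n 0 • n₁ = (ϖ ^ m * b.repr n 1) • b 1 := by
      calc ϖ ^ m • n - b.repr n 0 • n₁
          = ϖ ^ m • (b.repr n 0 • b 0 + b.repr n 1 • b 1) - b.repr n 0 • (ϖ ^ m • b 0) := by
            rw [hsum, hb]
        _ = (ϖ ^ m * b.repr n 1) • b 1 := by
            rw [smul_add, smul_smul, smul_smul, smul_smul, mul_comm (b.repr n 0)]
            abel
    rw [← h2]
    exact N.sub_mem (N.smul_mem _ hnN) (N.smul_mem _ hn₁N)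
  have h0 : (ϖ ^ m * b.repr n 1) • b 0 ∈ N := by
    rw [mul_comm, ← smul_smul, ← hb]
    exact N.smul_mem _ hn₁N
  refine ⟨m + c, fun v => ?_⟩
  have hv := b.sum_repr v
  rw [Fin.sum_univ_two] at hv
  have hpow : ϖ ^ (m + c) = ((w⁻¹ : Aˣ) : A) * (ϖ ^ m * b.repr n 1) := by
    rw [hw, pow_add]
    have : ((w⁻¹ : Aˣ) : A) * (w : A) = 1 := by rw [← Units.val_mul, inv_mul_cancel, Units.val_one]
    calc ϖ ^ m * ϖ ^ c = (((w⁻¹ : Aˣ) : A) * (w : A)) * (ϖ ^ m * ϖ ^ c) := by rw [this, one_mul]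
      _ = _ := by ring
  rw [← hv, hpow, smul_add, smul_smul, smul_smul]
  refine N.add_mem ?_ ?_
  · have : ((w⁻¹ : Aˣ) : A) * (ϖ ^ m * b.repr n 1) * b.repr v 0 =
        (((w⁻¹ : Aˣ) : A) * b.repr v 0) * (ϖ ^ m * b.repr n 1) := by ring
    rw [this, ← smul_smul]
    exact N.smul_mem _ h0
  · have : ((w⁻¹ : Aˣ) : A) * (ϖ ^ m * b.repr n 1) * b.repr v 1 =
        (((w⁻¹ : Aˣ) : A) * b.repr v 1) * (ϖ ^ m * b.repr n 1) := by ring
    rw [this, ← smul_smul]
    exact N.smul_mem _ h1

end Fermat.Agent.S33
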