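/-
S33, p-old half (helper6): **a flat deformation of an ordinary residual representation is ordinary**.

`A` a discrete valuation ring with `p ∈ 𝔪`, `p` odd, `ρ : G_ℚ → GL₂(A)` with cyclotomic determinant,
flat at `p` (the Prelude's `IsFlatAt`) and with `ρ̄` ordinary at `p`.  Then `ρ` is ordinary at `p`
(`s33f_ordinary_of_flat`).

Proof.  Fix a place `P` over `p` with inertia group `I`.  The additive subgroup `N` of `V` generated
by the `ρ(σ)v - v` (`σ ∈ I`) is an `A`-submodule, stable under the decomposition group, and non-zero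
because `det ρ = χ_p` is ramified.  By the dichotomy of `FlatOrdLin.lean` either `N` lies in a line
`A ∙ b 0` containing some `ϖ ^ m • b 0 ∈ N` — this line does the job — or `ϖ ^ c • V ⊆ N`.  In the
latter case take the function model `M` (`FFModel`, from `IsFlatAt`) of `V / ϖ ^ (c+1) V`: the image
of `N` consists of connected points (`ordGT_act_sub`), so the closure of `ϖ ^ c V / ϖ ^ (c+1) V ≅
V / ϖ V` is connected; its quotient by the kernel of the `I`-invariant functional `V / ϖ V → k`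
provided by the ordinarity of `ρ̄` is a connected model of the trivial `I`-module `k`, contradicting
`eq_zero_of_fixed` (`p` odd).
-/
import Fermat.Agent.Lib.S33.FlatOrdLin
import Fermat.Agent.Lib.TW.Flat.Place
import Fermat.Agent.Lib.TW.Flat.Char
import Fermat.Agent.Lib.TW.Flat.ModelQuot
import Fermat.Agent.Lib.TW.Flat.Stable
import Fermat.Agent.Lib.TW.Local.CycloRamified

set_option autoImplicit false
set_option linter.style.haveILetI false
set_option linter.unusedSectionVars false
set_option linter.unusedVariables false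

open IsLocalRing Fermat.Agent.TW
open scoped TensorProduct

namespace Fermat.Agent.S33

local notation "Qb" => AlgebraicClosure ℚ
local notation "GQb" => (AlgebraicClosure ℚ ≃ₐ[ℚ] AlgebraicClosure ℚ)

noncomputable section

section General

variable {A : Type} [CommRing A] [IsLocalRing A]

/-- the generators `ρ(σ) v - v`, `σ` in the inertia group -/
def s33fGen (ρ : GaloisRepAdic A) (P : ValuationSubring Qb) : Set ρ.V :=
  {w | ∃ σ ∈ P.inertiaSubgroupIn ℚ, ∃ v : ρ.V, w = ρ.ρ σ v - v}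

/-- the submodule generated by the `ρ(σ) v - v`, `σ` in the inertia group; its underlying additive
group is generated by these elements -/
def s33fSub (ρ : GaloisRepAdic A) (P : ValuationSubring Qb) : Submodule A ρ.V where
  toAddSubmonoid := (AddSubgroup.closure (s33fGen ρ P)).toAddSubmonoid
  smul_mem' := by
    intro a x hx
    change x ∈ AddSubgroup.closure (s33fGen ρ P) at hx
    change a • x ∈ AddSubgroup.closure (s33fGen ρ P)
    induction hx using AddSubgroup.closure_induction with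
    | mem w hw =>
      obtain ⟨σ, hσ, v, rfl⟩ := hw
      refine AddSubgroup.subset_closure ⟨σ, hσ, a • v, ?_⟩
      rw [smul_sub, map_smul]
    | zero => rw [smul_zero]; exact AddSubgroup.zero_mem _
    | add x y _ _ hx hy => rw [smul_add]; exact AddSubgroup.add_mem _ hx hy
    | neg x _ hx => rw [smul_neg]; exact AddSubgroup.neg_mem _ hx

theorem s33f_mem_sub_iff (ρ : GaloisRepAdic A) (P : ValuationSubring Qb) (x : ρ.V) :
    x ∈ s33fSub ρ P ↔ x ∈ AddSubgroup.closure (s33fGen ρ P) := Iff.rfl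

theorem s33f_gen_mem_sub (ρ : GaloisRepAdic A) (P : ValuationSubring Qb) {σ : GQb}
    (hσ : σ ∈ P.inertiaSubgroupIn ℚ) (v : ρ.V) : ρ.ρ σ v - v ∈ s33fSub ρ P :=
  AddSubgroup.subset_closure ⟨σ, hσ, v, rfl⟩

/-- `N` is stable under the decomposition group -/
theorem s33f_sub_stable (ρ : GaloisRepAdic A) (𝔓 : FFPlace) {σ : GQb} (hσ : σ ∈ 𝔓.D) {x : ρ.V}
    (hx : x ∈ s33fSub ρ 𝔓.P) : ρ.ρ σ x ∈ s33fSub ρ 𝔓.P := by
  change x ∈ AddSubgroup.closure (s33fGen ρ 𝔓.P) at hx
  change ρ.ρ σ x ∈ AddSubgroup.closure (s33fGen ρ 𝔓.P)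
  induction hx using AddSubgroup.closure_induction with
  | mem w hw =>
    obtain ⟨τ, hτ, v, rfl⟩ := hw
    refine AddSubgroup.subset_closure ⟨σ * τ * σ⁻¹, 𝔓.conj_mem_I hσ hτ, ρ.ρ σ v, ?_⟩
    rw [map_sub, map_mul, map_mul, Module.End.mul_apply, Module.End.mul_apply,
      ← Module.End.mul_apply (ρ.ρ σ⁻¹), ← map_mul, inv_mul_cancel, map_one, Module.End.one_apply]
  | zero => rw [map_zero]; exact AddSubgroup.zero_mem _
  | add x y _ _ hx hy => rw [map_add]; exact AddSubgroup.add_mem _ hx hy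
  | neg x _ hx => rw [map_neg]; exact AddSubgroup.neg_mem _ hx

/-- `ρ.V ⧸ J ρ.V` is finite when `A ⧸ J` is -/
theorem s33f_finite_quot (ρ : GaloisRepAdic A) (J : Ideal A) [Finite (A ⧸ J)] :
    Finite (ρ.V ⧸ (J • (⊤ : Submodule A ρ.V))) := by
  haveI : Module.Finite (A ⧸ J) (ρ.V ⧸ (J • (⊤ : Submodule A ρ.V))) :=
    Module.Finite.of_restrictScalars_finite A (A ⧸ J) _
  exact Module.finite_of_finite (A ⧸ J)

theorem s33f_levelAction_mk (ρ : GaloisRepAdic A) (J : Ideal A) (σ : GQb) (v : ρ.V) :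
    ρ.levelAction J σ (Submodule.Quotient.mk v) = Submodule.Quotient.mk (ρ.ρ σ v) := rfl

end General

section Key

variable {A : Type} [CommRing A] [IsDomain A] [IsDiscreteValuationRing A]

/-- **the full-rank case is impossible**: if `ρ` is flat at `p` (odd), `φ : V → k` is a surjective
functional invariant under the inertia group, then the span of the `ρ(σ) v - v` cannot contain
`ϖ ^ c • V` -/
theorem s33f_not_full (𝔓 : FFPlace) (hp2 : 2 < 𝔓.p) (ρ : GaloisRepAdic A)
    (hpm : (𝔓.p : A) ∈ maximalIdeal A) (hflat : ρ.IsFlatAt 𝔓.p)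
    (φ : ρ.V →ₗ[A] ResidueField A) (hφs : Function.Surjective φ)
    (hφI : ∀ σ ∈ 𝔓.I, ∀ v, φ (ρ.ρ σ v) = φ v)
    {ϖ : A} (hϖ : Irreducible ϖ) (c : ℕ) (hc : ∀ v : ρ.V, ϖ ^ c • v ∈ s33fSub ρ 𝔓.P) : False := by
  classical
  have hU := 𝔓.lf_unr
  haveI : Finite (ResidueField A) := hflat.1
  haveI : Finite (A ⧸ maximalIdeal A) := hflat.1
  have h𝔪span : maximalIdeal A = Ideal.span {ϖ} := hϖ.maximalIdeal_eq
  set J : Ideal A := maximalIdeal A ^ (c + 1) with hJ
  haveI : Finite (A ⧸ J) := Ideal.finite_quotient_pow (IsNoetherian.noetherian _) _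
  haveI : Finite (ρ.V ⧸ J • (⊤ : Submodule A ρ.V)) := s33f_finite_quot ρ J
  haveI : Finite (ρ.V ⧸ maximalIdeal A • (⊤ : Submodule A ρ.V)) := s33f_finite_quot ρ _
  obtain ⟨M, -⟩ := FFModel.exists_of_isFlatAt 𝔓 ρ hflat J
  -- the embedding `V / 𝔪 V → V / 𝔪 ^ (c+1) V`, multiplication by `ϖ ^ c`
  have hϖmem : ϖ ∈ maximalIdeal A := by rw [h𝔪span]; exact Ideal.mem_span_singleton_self ϖ
  have hle : maximalIdeal A • (⊤ : Submodule A ρ.V) ≤
      (J • (⊤ : Submodule A ρ.V)).comap ((ϖ ^ c) • (LinearMap.id : ρ.V →ₗ[A] ρ.V)) := by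
    rw [Submodule.smul_le]
    intro a ha v _
    rw [Submodule.mem_comap, LinearMap.smul_apply, LinearMap.id_apply, smul_smul]
    refine Submodule.smul_mem_smul ?_ Submodule.mem_top
    rw [hJ, pow_succ]
    exact Ideal.mul_mem_mul (Ideal.pow_mem_pow hϖmem c) ha
  set ιl : (ρ.V ⧸ maximalIdeal A • (⊤ : Submodule A ρ.V)) →ₗ[A]
      (ρ.V ⧸ J • (⊤ : Submodule A ρ.V)) :=
    Submodule.mapQ _ _ ((ϖ ^ c) • (LinearMap.id : ρ.V →ₗ[A] ρ.V)) hle with hιl
  have hιmk : ∀ v : ρ.V, ιl (Submodule.Quotient.mk v) = Submodule.Quotient.mk (ϖ ^ c • v) :=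
    fun v => rfl
  have hιinj : Function.Injective ιl.toAddMonoidHom := by
    rw [injective_iff_map_eq_zero]
    intro x hx
    induction x using Submodule.Quotient.induction_on with
    | H v =>
      change ιl (Submodule.Quotient.mk v) = 0 at hx
      rw [hιmk, Submodule.Quotient.mk_eq_zero, hJ, h𝔪span, Ideal.span_singleton_pow,
        Submodule.ideal_span_singleton_smul, Submodule.mem_smul_pointwise_iff_exists] at hx
      obtain ⟨w, -, hw⟩ := hx
      have h1 : ϖ ^ c • (v - ϖ • w) = 0 := by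
        rw [smul_sub, smul_smul, ← pow_succ, hw, sub_self]
      have h2 : v - ϖ • w = 0 :=
        (smul_eq_zero.mp h1).resolve_left (pow_ne_zero c hϖ.ne_zero)
      rw [Submodule.Quotient.mk_eq_zero, sub_eq_zero.mp h2]
      exact Submodule.smul_mem_smul hϖmem Submodule.mem_top
  have hιact : ∀ σ ∈ 𝔓.I, ∀ y, ιl.toAddMonoidHom ((ρ.levelAction (maximalIdeal A) σ).toAddMonoidHom y) =
      (ρ.levelAction J σ).toAddMonoidHom (ιl.toAddMonoidHom y) := by
    intro σ _ y
    induction y using Submodule.Quotient.induction_on with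
    | H v =>
      change ιl (ρ.levelAction (maximalIdeal A) σ (Submodule.Quotient.mk v)) =
        ρ.levelAction J σ (ιl (Submodule.Quotient.mk v))
      rw [s33f_levelAction_mk, hιmk, hιmk, s33f_levelAction_mk, map_smul]
  set M' := M.comap ιl.toAddMonoidHom hιinj hιact with hM'
  -- every point of the closure is connected
  have hNgt : ∀ w ∈ s33fSub ρ 𝔓.P, M.OrdGT (Submodule.Quotient.mk w) 0 := by
    intro w hw
    change w ∈ AddSubgroup.closure (s33fGen ρ 𝔓.P) at hw
    induction hw using AddSubgroup.closure_induction with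
    | mem w hw =>
      obtain ⟨σ, hσ, v, rfl⟩ := hw
      have := M.ordGT_act_sub (Submodule.Quotient.mk v) (τ := σ) hσ
      exact this
    | zero => exact M.ordGT_zero 0
    | add x y _ _ hx hy => exact FFModel.OrdGT.add hx hy
    | neg x _ hx => exact FFModel.OrdGT.neg hx
  have hconn : ∀ x, M'.OrdGT x 0 := by
    intro x
    rw [hM', FFModel.ordGT_comap_iff]
    induction x using Submodule.Quotient.induction_on with
    | H v => exact hNgt _ (hc v)
  -- the quotient `V / 𝔪 V → k`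
  have hker : maximalIdeal A • (⊤ : Submodule A ρ.V) ≤ LinearMap.ker φ := by
    rw [Submodule.smul_le]
    intro a ha v _
    rw [LinearMap.mem_ker, map_smul, Algebra.smul_def, ResidueField.algebraMap_eq,
      (residue_eq_zero_iff a).mpr ha, zero_mul]
  set πl : (ρ.V ⧸ maximalIdeal A • (⊤ : Submodule A ρ.V)) →ₗ[A] ResidueField A :=
    Submodule.liftQ _ φ hker with hπl
  have hπmk : ∀ v : ρ.V, πl (Submodule.Quotient.mk v) = φ v := fun v => rfl
  have hπs : Function.Surjective πl.toAddMonoidHom := by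
    intro y
    obtain ⟨v, rfl⟩ := hφs y
    exact ⟨Submodule.Quotient.mk v, rfl⟩
  have hπact : ∀ σ ∈ 𝔓.I, ∀ x, πl.toAddMonoidHom
      ((ρ.levelAction (maximalIdeal A) σ).toAddMonoidHom x) =
      (fun _ : GQb => AddMonoidHom.id (ResidueField A)) σ (πl.toAddMonoidHom x) := by
    intro σ hσ x
    induction x using Submodule.Quotient.induction_on with
    | H v =>
      change πl (ρ.levelAction (maximalIdeal A) σ (Submodule.Quotient.mk v)) =
        πl (Submodule.Quotient.mk v)
      rw [s33f_levelAction_mk, hπmk, hπmk, hφI σ hσ]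
  set M'' := M'.quot hU πl.toAddMonoidHom hπs hπact with hM''
  obtain ⟨x, hx⟩ := hπs 1
  have hgt : M''.OrdGT (1 : ResidueField A) 0 := by
    rw [← hx]
    exact FFModel.OrdGT.quot M' hU _ hπs hπact (hconn x)
  have hp1 : 𝔓.p • (1 : ResidueField A) = 0 := by
    rw [nsmul_eq_mul, mul_one]
    have : ((𝔓.p : ℕ) : ResidueField A) = residue A ((𝔓.p : ℕ) : A) := by rw [map_natCast]
    rw [this]
    exact (residue_eq_zero_iff _).mpr hpm
  have h10 := FFModel.eq_zero_of_fixed (M := M'') hU hp2 hp1 hgt (fun _ _ => rfl)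
  exact one_ne_zero h10

/-- the inertia group at `p` acts non-trivially when the determinant is cyclotomic (`p` odd) -/
theorem s33f_exists_inertia_ne_one {p : ℕ} (hp : p.Prime) (h3 : 3 ≤ p) (ρ : GaloisRepAdic A)
    (hdet : ρ.DetIsCyclotomic p) (P : ValuationSubring Qb) (hP : P.LiesOverPrime p) :
    ∃ σ ∈ P.inertiaSubgroupIn ℚ, ρ.ρ σ ≠ 1 := by
  haveI : Fact p.Prime := ⟨hp⟩
  obtain ⟨σ, hσ, hne⟩ := tw_exists_inertia_cycloChar_ne_one p h3 P hP
  refine ⟨σ, hσ, fun h1 => hne ?_⟩
  have h2 := hdet.2 1 σ (ExtCitation.cycloExp p σ) (by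
    intro μ hμ
    rw [pow_one] at hμ
    exact Fermat.Agent.CFT.S14.apply_eq_pow_cycloExp p σ hμ)
  rw [h1, pow_one] at h2
  have hdet1 : LinearMap.det (1 : Module.End A ρ.V) = 1 := map_one _
  rw [hdet1] at h2
  have h4 : (1 : A) - (ExtCitation.cycloExp p σ : A) ∈ maximalIdeal A := by
    refine (Ideal.span_le.mpr ?_) h2
    intro x hx
    rw [Set.mem_singleton_iff] at hx
    rw [hx]
    exact hdet.1
  have hp0 : ((p : ℕ) : ResidueField A) = 0 := by
    have : ((p : ℕ) : ResidueField A) = residue A ((p : ℕ) : A) := by rw [map_natCast]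
    rw [this]
    exact (residue_eq_zero_iff _).mpr hdet.1
  haveI : CharP (ResidueField A) p := (CharP.charP_iff_prime_eq_zero hp).2 hp0
  have h5 : ((ExtCitation.cycloExp p σ : ℕ) : ResidueField A) = ((1 : ℕ) : ResidueField A) := by
    have := (residue_eq_zero_iff _).mpr h4
    rw [map_sub, map_one, map_natCast, sub_eq_zero] at this
    rw [Nat.cast_one]
    exact this.symm
  rw [CharP.natCast_eq_natCast (ResidueField A) p] at h5
  apply Units.ext
  rw [ExtCitation.coe_cycloChar, Units.val_one]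
  have := (ZMod.natCast_eq_natCast_iff _ _ _).mpr h5
  rw [Nat.cast_one] at this
  exact this

/-- the invariant functional `V → k` given by a line of `k ⊗ V` modulo which a subgroup acts
trivially -/
theorem s33f_exists_functional (ρ : GaloisRepAdic A) (I : Subgroup GQb)
    (Lb : Submodule (ResidueField A) (ResidueField A ⊗[A] ρ.V))
    (bb : Module.Basis (Fin 2) (ResidueField A) (ResidueField A ⊗[A] ρ.V))
    (hLb : Lb = Submodule.span (ResidueField A) {bb 0})
    (hI : ∀ σ ∈ I, ∀ w : ResidueField A ⊗[A] ρ.V,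
      (ρ.ρ σ).baseChange (ResidueField A) w - w ∈ Lb) :
    ∃ φ : ρ.V →ₗ[A] ResidueField A, Function.Surjective φ ∧ ∀ σ ∈ I, ∀ v, φ (ρ.ρ σ v) = φ v := by
  classical
  set φb : (ResidueField A ⊗[A] ρ.V) →ₗ[ResidueField A] ResidueField A := bb.coord 1 with hφb
  set φ : ρ.V →ₗ[A] ResidueField A :=
    (φb.restrictScalars A).comp (TensorProduct.mk A (ResidueField A) ρ.V 1) with hφ
  have hφapp : ∀ v, φ v = φb ((1 : ResidueField A) ⊗ₜ[A] v) := fun v => rfl
  have hφL : ∀ w ∈ Lb, φb w = 0 := by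
    intro w hw
    rw [hLb] at hw
    obtain ⟨a, rfl⟩ := Submodule.mem_span_singleton.mp hw
    rw [map_smul, hφb, Module.Basis.coord_apply, Module.Basis.repr_self,
      Finsupp.single_apply, if_neg (by decide), smul_zero]
  refine ⟨φ, ?_, ?_⟩
  · intro y
    have hs := TensorProduct.mk_surjective A ρ.V (ResidueField A)
      (Ideal.Quotient.mk_surjective (I := maximalIdeal A))
    obtain ⟨v, hv⟩ := hs (y • bb 1)
    refine ⟨v, ?_⟩
    rw [hφapp]
    change φb (TensorProduct.mk A (ResidueField A) ρ.V 1 v) = y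
    rw [hv, map_smul, hφb, Module.Basis.coord_apply, Module.Basis.repr_self,
      Finsupp.single_eq_same, smul_eq_mul, mul_one]
  · intro σ hσ v
    have h1 := hI σ hσ ((1 : ResidueField A) ⊗ₜ[A] v)
    rw [LinearMap.baseChange_tmul] at h1
    have h3 := hφL _ h1
    rw [map_sub, sub_eq_zero] at h3
    rw [hφapp, hφapp]
    exact h3

/-- **a flat deformation of an ordinary residual representation is ordinary**, at one place -/
theorem s33f_ordinary_of_flat_at {p : ℕ} (hp : p.Prime) (hp2 : p ≠ 2) (ρ : GaloisRepAdic A)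
    (hdet : ρ.DetIsCyclotomic p) (hflat : ρ.IsFlatAt p)
    (hres : (GaloisRepAdic.ofResidualGaloisRep ρ.residual).IsOrdinaryAt p)
    (P : ValuationSubring Qb) (hP : P.LiesOverPrime p) :
    ∃ L : Submodule A ρ.V,
      (∃ b : Module.Basis (Fin 2) A ρ.V, L = Submodule.span A {b 0}) ∧
      (∀ σ ∈ P.decompositionSubgroup ℚ, ∀ v ∈ L, ρ.ρ σ v ∈ L) ∧
      (∀ σ ∈ P.inertiaSubgroupIn ℚ, ∀ v : ρ.V, ρ.ρ σ v - v ∈ L) := by
  classical
  have h3 : 3 ≤ p := by
    have := hp.two_le
    omega
  set 𝔓 : FFPlace := ⟨P, p, hp, hP⟩ with h𝔓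
  obtain ⟨ϖ, hϖ⟩ := IsDiscreteValuationRing.exists_irreducible A
  -- the invariant functional coming from the residual representation
  obtain ⟨Lb, ⟨bb, hLb⟩, -, hLbI⟩ := hres P hP
  obtain ⟨φ, hφs, hφI⟩ := s33f_exists_functional ρ 𝔓.I Lb bb hLb hLbI
  -- the submodule `N`
  obtain ⟨σ₀, hσ₀, hne⟩ := s33f_exists_inertia_ne_one hp h3 ρ hdet P hP
  have hN : s33fSub ρ P ≠ ⊥ := by
    intro hbot
    apply hne
    refine LinearMap.ext fun v => ?_
    have := s33f_gen_mem_sub ρ P hσ₀ v
    rw [hbot, Submodule.mem_bot, sub_eq_zero] at this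
    rw [this, Module.End.one_apply]
  have e : Module.Basis (Fin 2) A ρ.V := Module.finBasisOfFinrankEq A ρ.V ρ.finrank_eq
  rcases s33f_dichotomy e hϖ (s33fSub ρ P) hN with ⟨c, hc⟩ | ⟨b, m, hbm, hle⟩
  · exact (s33f_not_full 𝔓 (by change 2 < p; omega) ρ hdet.1 hflat φ hφs hφI hϖ c hc).elim
  · refine ⟨Submodule.span A {b 0}, ⟨b, rfl⟩, ?_, ?_⟩
    · intro σ hσ v hv
      obtain ⟨a, rfl⟩ := Submodule.mem_span_singleton.mp hv
      rw [map_smul]
      refine Submodule.smul_mem _ _ ?_
      have h1 : ρ.ρ σ (ϖ ^ m • b 0) ∈ Submodule.span A {b 0} :=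
        hle (s33f_sub_stable ρ 𝔓 (σ := σ) hσ hbm)
      rw [map_smul, s33f_mem_span_basis_zero_iff, map_smul, Finsupp.smul_apply, smul_eq_mul] at h1
      rw [s33f_mem_span_basis_zero_iff]
      exact (mul_eq_zero.mp h1).resolve_left (pow_ne_zero m hϖ.ne_zero)
    · intro σ hσ v
      exact hle (s33f_gen_mem_sub ρ P hσ v)

/-- **a flat deformation of an ordinary residual representation is ordinary** (`A` a discrete
valuation ring of residue characteristic `p` odd, cyclotomic determinant) -/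
theorem s33f_ordinary_of_flat {p : ℕ} (hp : p.Prime) (hp2 : p ≠ 2) (ρ : GaloisRepAdic A)
    (hdet : ρ.DetIsCyclotomic p) (hflat : ρ.IsFlatAt p)
    (hres : (GaloisRepAdic.ofResidualGaloisRep ρ.residual).IsOrdinaryAt p) :
    ρ.IsOrdinaryAt p :=
  fun P hP => s33f_ordinary_of_flat_at hp hp2 ρ hdet hflat hres P hP

end Key

end

end Fermat.Agent.S33
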